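import Mathlib

/-!
# Herbrand quotients

For an abelian group `M` with two endomorphisms `f`, `g` with `f g = g f = 0`, we put
`H f g = ker f / im g`. For an exact sequence we get an exact hexagon.
-/

set_option autoImplicit false

namespace Fermat.Agent.Herbrand

/-- `ker f / im g`. -/
abbrev HQ {M : Type*} [AddCommGroup M] (f g : M →+ M) : Type _ :=
  f.ker ⧸ (g.range.addSubgroupOf f.ker)

/-- order of `ker f / im g` (zero if infinite) -/
noncomputable def hq {M : Type*} [AddCommGroup M] (f g : M →+ M) : ℕ := g.range.relIndex f.ker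

lemma card_HQ {M : Type*} [AddCommGroup M] (f g : M →+ M) : Nat.card (HQ f g) = hq f g := rfl

section basic

variable {M : Type*} [AddCommGroup M] (f g : M →+ M)

/-- class of an element of the kernel -/
def cls (x : M) (hx : f x = 0) : HQ f g := QuotientAddGroup.mk ⟨x, hx⟩

variable {f g}

lemma cls_surj (z : HQ f g) : ∃ x, ∃ hx : f x = 0, cls f g x hx = z := by
  obtain ⟨⟨x, hx⟩, rfl⟩ := QuotientAddGroup.mk_surjective z
  exact ⟨x, hx, rfl⟩

lemma cls_eq_iff {x y : M} (hx : f x = 0) (hy : f y = 0) :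
    cls f g x hx = cls f g y hy ↔ ∃ z, g z = y - x := by
  unfold cls
  rw [QuotientAddGroup.eq, AddSubgroup.mem_addSubgroupOf, AddMonoidHom.mem_range]
  constructor
  · rintro ⟨z, hz⟩; exact ⟨z, by rw [hz]; show -x + y = y - x; abel⟩
  · rintro ⟨z, hz⟩; exact ⟨z, by rw [hz]; show y - x = -x + y; abel⟩

lemma cls_eq_zero_iff {x : M} (hx : f x = 0) : cls f g x hx = 0 ↔ ∃ z, g z = x := by
  have h0 : (0 : HQ f g) = cls f g 0 (map_zero f) := rfl
  rw [h0, cls_eq_iff]
  constructor
  · rintro ⟨z, hz⟩; exact ⟨-z, by rw [map_neg, hz]; abel⟩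
  · rintro ⟨z, hz⟩; exact ⟨-z, by rw [map_neg, hz]; abel⟩

lemma cls_add {x y : M} (hx : f x = 0) (hy : f y = 0) :
    cls f g x hx + cls f g y hy = cls f g (x + y) (by rw [map_add, hx, hy, add_zero]) := rfl

end basic

section functorial

variable {A B : Type*} [AddCommGroup A] [AddCommGroup B]
  {fA gA : A →+ A} {fB gB : B →+ B} (φ : A →+ B) (hf : ∀ a, φ (fA a) = fB (φ a))
  (hg : ∀ a, φ (gA a) = gB (φ a))

/-- the induced map -/
def mapH : HQ fA gA →+ HQ fB gB :=
  QuotientAddGroup.map _ _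
    ((φ.comp fA.ker.subtype).codRestrict fB.ker (fun a => by
      rw [AddMonoidHom.mem_ker]; show fB (φ a) = 0; rw [← hf, a.2, map_zero]))
    (by
      intro a ha
      rw [AddSubgroup.mem_addSubgroupOf] at ha
      obtain ⟨z, hz⟩ := ha
      rw [AddSubgroup.mem_comap, AddSubgroup.mem_addSubgroupOf]
      exact ⟨φ z, by rw [← hg, hz]; rfl⟩)

lemma mapH_cls (a : A) (ha : fA a = 0) :
    mapH φ hf hg (cls fA gA a ha) = cls fB gB (φ a) (by rw [← hf, ha, map_zero]) := rfl

end functorial

section counting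

/-- cardinality through an exact spot -/
lemma card_exact {X Y Z : Type*} [AddCommGroup X] [AddCommGroup Y] [AddCommGroup Z]
    (a : X →+ Y) (b : Y →+ Z) (h : b.ker = a.range) :
    Nat.card Y = Nat.card a.range * Nat.card b.range := by
  rw [← h, ← AddSubgroup.card_mul_index b.ker]
  congr 1
  exact AddSubgroup.index_ker b

lemma finite_exact {X Y Z : Type*} [AddCommGroup X] [AddCommGroup Y] [AddCommGroup Z]
    (a : X →+ Y) (b : Y →+ Z) (h : b.ker = a.range) [Finite X] [Finite Z] : Finite Y := by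
  have h1 : Finite a.range := Finite.of_surjective _ a.rangeRestrict_surjective
  have h2 : Finite b.range := Finite.of_injective _ (Subtype.val_injective)
  have h3 : Nat.card Y ≠ 0 := by
    rw [card_exact a b h]
    exact mul_ne_zero Nat.card_pos.ne' Nat.card_pos.ne'
  exact Nat.finite_of_card_ne_zero h3

end counting

section hexagon

variable {A B C : Type*} [AddCommGroup A] [AddCommGroup B] [AddCommGroup C]

/-- an exact sequence of groups with pairs of endomorphisms -/
structure SES (fA gA : A →+ A) (fB gB : B →+ B) (fC gC : C →+ C) where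
  φ : A →+ B
  ψ : B →+ C
  inj : Function.Injective φ
  surj : Function.Surjective ψ
  exact : ∀ b, ψ b = 0 → ∃ a, φ a = b
  comp : ∀ a, ψ (φ a) = 0
  hφf : ∀ a, φ (fA a) = fB (φ a)
  hφg : ∀ a, φ (gA a) = gB (φ a)
  hψf : ∀ b, ψ (fB b) = fC (ψ b)
  hψg : ∀ b, ψ (gB b) = gC (ψ b)
  hfg : ∀ b, fB (gB b) = 0
  hgf : ∀ b, gB (fB b) = 0

variable {fA gA : A →+ A} {fB gB : B →+ B} {fC gC : C →+ C}

/-- exchange the roles of `f` and `g` -/
def SES.swap (s : SES fA gA fB gB fC gC) : SES gA fA gB fB gC fC :=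
  ⟨s.φ, s.ψ, s.inj, s.surj, s.exact, s.comp, s.hφg, s.hφf, s.hψg, s.hψf, s.hgf, s.hfg⟩

variable (s : SES fA gA fB gB fC gC)

/-- the map `H(A) → H(B)` -/
def SES.i : HQ fA gA →+ HQ fB gB := mapH s.φ s.hφf s.hφg

/-- the map `H(B) → H(C)` -/
def SES.p : HQ fB gB →+ HQ fC gC := mapH s.ψ s.hψf s.hψg

/-- exactness at `H(B)`. -/
lemma SES.exact₂ : s.p.ker = s.i.range := by
  ext z
  constructor
  · intro hz
    obtain ⟨b, hb, rfl⟩ := cls_surj z
    rw [AddMonoidHom.mem_ker, SES.p, mapH_cls, cls_eq_zero_iff] at hz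
    obtain ⟨c, hc⟩ := hz
    obtain ⟨b', rfl⟩ := s.surj c
    rw [← s.hψg] at hc
    obtain ⟨a, ha⟩ := s.exact (b - gB b') (by rw [map_sub, hc, sub_self])
    have ha' : fA a = 0 := by
      apply s.inj
      rw [s.hφf, ha, map_sub, hb, s.hfg, sub_zero, map_zero]
    refine ⟨cls fA gA a ha', ?_⟩
    rw [SES.i, mapH_cls, cls_eq_iff]
    exact ⟨b', by rw [ha]; abel⟩
  · rintro ⟨z, rfl⟩
    obtain ⟨a, ha, rfl⟩ := cls_surj z
    rw [AddMonoidHom.mem_ker, SES.i, SES.p, mapH_cls, mapH_cls, cls_eq_zero_iff]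
    exact ⟨0, by rw [map_zero, s.comp]⟩

/-- a relation describing the connecting map -/
lemma SES.exists_conn (c : C) (hc : fC c = 0) :
    ∃ (b : B) (a : A), s.ψ b = c ∧ s.φ a = fB b ∧ gA a = 0 := by
  obtain ⟨b, rfl⟩ := s.surj c
  obtain ⟨a, ha⟩ := s.exact (fB b) (by rw [s.hψf, hc])
  exact ⟨b, a, rfl, ha, s.inj (by rw [s.hφg, ha, s.hgf, map_zero])⟩

lemma SES.conn_unique {c : C} {b b' : B} {a a' : A} (hb : s.ψ b = c) (ha : s.φ a = fB b)
    (hga : gA a = 0) {c'' : C} (hb' : s.ψ b' = c + gC c'') (ha' : s.φ a' = fB b') (hga' : gA a' = 0) :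
    cls gA fA a hga = cls gA fA a' hga' := by
  rw [cls_eq_iff]
  obtain ⟨b'', rfl⟩ := s.surj c''
  obtain ⟨x, hx⟩ := s.exact (b' - b - gB b'') (by
    rw [map_sub, map_sub, hb, hb', s.hψg]; abel)
  refine ⟨x, s.inj ?_⟩
  rw [s.hφf, hx, map_sub, map_sub, map_sub, ha, ha', s.hfg, sub_zero]

/-- the connecting map -/
noncomputable def SES.δ : HQ fC gC →+ HQ gA fA :=
  QuotientAddGroup.lift _
    { toFun := fun c => cls gA fA (s.exists_conn c.1 c.2).choose_spec.choose
        (s.exists_conn c.1 c.2).choose_spec.choose_spec.2.2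
      map_zero' := by
        have h := (s.exists_conn (0 : fC.ker).1 (0 : fC.ker).2).choose_spec.choose_spec
        rw [show (0 : HQ gA fA) = cls gA fA 0 (map_zero _) from rfl]
        exact (s.conn_unique (c := 0) (b := 0) (a := 0) (c'' := 0) (map_zero _)
          (by rw [map_zero, map_zero]) (map_zero _) (by rw [h.1, map_zero, add_zero]; rfl) h.2.1 h.2.2).symm
      map_add' := fun x y => by
        have hx := (s.exists_conn x.1 x.2).choose_spec.choose_spec
        have hy := (s.exists_conn y.1 y.2).choose_spec.choose_spec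
        have hxy := (s.exists_conn (x + y).1 (x + y).2).choose_spec.choose_spec
        rw [cls_add]
        exact (s.conn_unique (c := x.1 + y.1) (c'' := 0)
          (b := (s.exists_conn x.1 x.2).choose + (s.exists_conn y.1 y.2).choose)
          (by rw [map_add, hx.1, hy.1]) (by rw [map_add, map_add, hx.2.1, hy.2.1])
          _ (by rw [hxy.1, map_zero, add_zero]; rfl) hxy.2.1 hxy.2.2).symm }
    (by
      intro c hc
      rw [AddSubgroup.mem_addSubgroupOf] at hc
      obtain ⟨c'', hc''⟩ := hc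
      rw [AddMonoidHom.mem_ker]
      have h := (s.exists_conn c.1 c.2).choose_spec.choose_spec
      show _ = cls gA fA 0 (map_zero _)
      exact (s.conn_unique (c := 0) (b := 0) (a := 0) (c'' := c'') (map_zero _)
          (by rw [map_zero, map_zero]) (map_zero _) (by rw [h.1, zero_add, hc'']) h.2.1 h.2.2).symm)

lemma SES.δ_cls {c : C} (hc : fC c = 0) {b : B} {a : A} (hb : s.ψ b = c) (ha : s.φ a = fB b)
    (hga : gA a = 0) : s.δ (cls fC gC c hc) = cls gA fA a hga := by
  have h := (s.exists_conn c hc).choose_spec.choose_spec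
  exact (s.conn_unique (c := c) (c'' := 0) hb ha hga (by rw [h.1, map_zero, add_zero]) h.2.1 h.2.2).symm

/-- exactness at `H(C)`. -/
lemma SES.exact₃ : s.δ.ker = s.p.range := by
  ext z
  constructor
  · intro hz
    obtain ⟨c, hc, rfl⟩ := cls_surj z
    obtain ⟨b, a, hb, ha, hga⟩ := s.exists_conn c hc
    rw [AddMonoidHom.mem_ker, s.δ_cls hc hb ha hga, cls_eq_zero_iff] at hz
    obtain ⟨x, rfl⟩ := hz
    have hb' : fB (b - s.φ x) = 0 := by rw [map_sub, ← s.hφf, ha, sub_self]
    refine ⟨cls fB gB (b - s.φ x) hb', ?_⟩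
    rw [SES.p, mapH_cls, cls_eq_iff]
    exact ⟨0, by rw [map_zero, map_sub, s.comp, sub_zero, hb, sub_self]⟩
  · rintro ⟨z, rfl⟩
    obtain ⟨b, hb, rfl⟩ := cls_surj z
    rw [AddMonoidHom.mem_ker, SES.p, mapH_cls,
      s.δ_cls (b := b) (a := 0) _ rfl (by rw [hb, map_zero]) (map_zero _), cls_eq_zero_iff]
    exact ⟨0, map_zero _⟩

/-- exactness at `H'(A)`. -/
lemma SES.exact₁ : s.swap.i.ker = s.δ.range := by
  ext z
  constructor
  · intro hz
    obtain ⟨a, ha, rfl⟩ := cls_surj z
    rw [AddMonoidHom.mem_ker, SES.i, mapH_cls, cls_eq_zero_iff] at hz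
    obtain ⟨b, hb⟩ := hz
    have hc : fC (s.ψ b) = 0 := by
      rw [← s.hψf, hb]; exact s.comp a
    exact ⟨cls fC gC (s.ψ b) hc, s.δ_cls hc rfl hb.symm ha⟩
  · rintro ⟨z, rfl⟩
    obtain ⟨c, hc, rfl⟩ := cls_surj z
    obtain ⟨b, a, hb, ha, hga⟩ := s.exists_conn c hc
    rw [s.δ_cls hc hb ha hga, AddMonoidHom.mem_ker, SES.i, mapH_cls, cls_eq_zero_iff]
    exact ⟨b, ha.symm⟩

include s in
/-- The Herbrand quotient is multiplicative. -/
theorem SES.card_mul : hq fA gA * hq fC gC * hq gB fB = hq fB gB * hq gA fA * hq gC fC := by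
  have e1 : hq fB gB = Nat.card s.i.range * Nat.card s.p.range := card_exact _ _ s.exact₂
  have e2 : hq fC gC = Nat.card s.p.range * Nat.card s.δ.range := card_exact _ _ s.exact₃
  have e3 : hq gA fA = Nat.card s.δ.range * Nat.card s.swap.i.range := card_exact _ _ s.exact₁
  have e4 : hq gB fB = Nat.card s.swap.i.range * Nat.card s.swap.p.range :=
    card_exact _ _ s.swap.exact₂
  have e5 : hq gC fC = Nat.card s.swap.p.range * Nat.card s.swap.δ.range :=
    card_exact _ _ s.swap.exact₃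
  have e6 : hq fA gA = Nat.card s.swap.δ.range * Nat.card s.i.range :=
    card_exact s.swap.δ s.i s.swap.exact₁
  rw [e1, e2, e3, e4, e5, e6]
  ring

lemma ne_zero_iff_finite {M : Type*} [AddCommGroup M] (f g : M →+ M) :
    hq f g ≠ 0 ↔ Finite (HQ f g) := by
  rw [← card_HQ]
  constructor
  · intro h; exact Nat.finite_of_card_ne_zero h
  · intro h; exact Nat.card_pos.ne'

include s in
theorem SES.ne_zero₂ (hA : hq fA gA ≠ 0) (hC : hq fC gC ≠ 0) : hq fB gB ≠ 0 := by
  rw [ne_zero_iff_finite] at *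
  exact finite_exact s.i s.p s.exact₂

include s in
theorem SES.ne_zero₃ (hB : hq fB gB ≠ 0) (hA : hq gA fA ≠ 0) : hq fC gC ≠ 0 := by
  rw [ne_zero_iff_finite] at *
  exact finite_exact s.p s.δ s.exact₃

include s in
theorem SES.ne_zero₁ (hC : hq fC gC ≠ 0) (hB : hq gB fB ≠ 0) : hq gA fA ≠ 0 := by
  rw [ne_zero_iff_finite] at *
  exact finite_exact s.δ s.swap.i s.exact₁

end hexagon

section finite

/-- the Herbrand quotient of a finite module is trivial -/
theorem hq_eq_of_finite {M : Type*} [AddCommGroup M] [Finite M] (f g : M →+ M)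
    (hfg : ∀ b, f (g b) = 0) (hgf : ∀ b, g (f b) = 0) : hq f g = hq g f := by
  have h1 : g.range ≤ f.ker := by rintro _ ⟨x, rfl⟩; exact hfg x
  have h2 : f.range ≤ g.ker := by rintro _ ⟨x, rfl⟩; exact hgf x
  have e1 : Nat.card g.range * hq f g = Nat.card f.ker := by
    have := AddSubgroup.relIndex_mul_relIndex ⊥ g.range f.ker bot_le h1
    rwa [AddSubgroup.relIndex_bot_left, AddSubgroup.relIndex_bot_left] at this
  have e2 : Nat.card f.range * hq g f = Nat.card g.ker := by
    have := AddSubgroup.relIndex_mul_relIndex ⊥ f.range g.ker bot_le h2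
    rwa [AddSubgroup.relIndex_bot_left, AddSubgroup.relIndex_bot_left] at this
  have e3 : Nat.card f.ker * Nat.card f.range = Nat.card M := by
    rw [← AddSubgroup.card_mul_index f.ker, AddSubgroup.index_ker]
  have e4 : Nat.card g.ker * Nat.card g.range = Nat.card M := by
    rw [← AddSubgroup.card_mul_index g.ker, AddSubgroup.index_ker]
  have hf : 0 < Nat.card f.range := Nat.card_pos
  have hg : 0 < Nat.card g.range := Nat.card_pos
  have : (Nat.card g.range * Nat.card f.range) * hq f g =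
      (Nat.card g.range * Nat.card f.range) * hq g f := by
    calc (Nat.card g.range * Nat.card f.range) * hq f g =
        (Nat.card g.range * hq f g) * Nat.card f.range := by ring
      _ = (Nat.card f.range * hq g f) * Nat.card g.range := by rw [e1, e2, e3, e4]
      _ = _ := by ring
  exact Nat.eq_of_mul_eq_mul_left (Nat.mul_pos hg hf) this

lemma hq_ne_zero_of_finite {M : Type*} [AddCommGroup M] [Finite M] (f g : M →+ M) :
    hq f g ≠ 0 := by
  rw [ne_zero_iff_finite]; infer_instance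

end finite

end Fermat.Agent.Herbrand
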