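import Mathlib
import Fermat.Agent.Herbrand.Basic

/-!
# Herbrand quotients, multiplicative notation
-/

set_option autoImplicit false

namespace Fermat.Agent.Herbrand

/-- order of `ker f / im g` (zero if infinite), multiplicative version -/
noncomputable def hqm {M : Type*} [CommGroup M] (f g : M →* M) : ℕ := g.range.relIndex f.ker

lemma hqm_eq {M : Type*} [CommGroup M] (f g : M →* M) :
    hqm f g = hq (MonoidHom.toAdditive f) (MonoidHom.toAdditive g) := rfl

section hexagon

variable {A B C : Type*} [CommGroup A] [CommGroup B] [CommGroup C]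

/-- an exact sequence of groups with pairs of endomorphisms -/
structure SESM (fA gA : A →* A) (fB gB : B →* B) (fC gC : C →* C) where
  φ : A →* B
  ψ : B →* C
  inj : Function.Injective φ
  surj : Function.Surjective ψ
  exact : ∀ b, ψ b = 1 → ∃ a, φ a = b
  comp : ∀ a, ψ (φ a) = 1
  hφf : ∀ a, φ (fA a) = fB (φ a)
  hφg : ∀ a, φ (gA a) = gB (φ a)
  hψf : ∀ b, ψ (fB b) = fC (ψ b)
  hψg : ∀ b, ψ (gB b) = gC (ψ b)
  hfg : ∀ b, fB (gB b) = 1
  hgf : ∀ b, gB (fB b) = 1

variable {fA gA : A →* A} {fB gB : B →* B} {fC gC : C →* C}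

/-- exchange the roles of `f` and `g` -/
def SESM.swap (s : SESM fA gA fB gB fC gC) : SESM gA fA gB fB gC fC :=
  ⟨s.φ, s.ψ, s.inj, s.surj, s.exact, s.comp, s.hφg, s.hφf, s.hψg, s.hψf, s.hgf, s.hfg⟩

/-- the additive exact sequence -/
def SESM.toSES (s : SESM fA gA fB gB fC gC) :
    SES (MonoidHom.toAdditive fA) (MonoidHom.toAdditive gA) (MonoidHom.toAdditive fB)
      (MonoidHom.toAdditive gB) (MonoidHom.toAdditive fC) (MonoidHom.toAdditive gC) where
  φ := MonoidHom.toAdditive s.φ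
  ψ := MonoidHom.toAdditive s.ψ
  inj := s.inj
  surj := s.surj
  exact := s.exact
  comp := s.comp
  hφf := s.hφf
  hφg := s.hφg
  hψf := s.hψf
  hψg := s.hψg
  hfg := s.hfg
  hgf := s.hgf

variable (s : SESM fA gA fB gB fC gC)

include s in
/-- The Herbrand quotient is multiplicative. -/
theorem SESM.card_mul :
    hqm fA gA * hqm fC gC * hqm gB fB = hqm fB gB * hqm gA fA * hqm gC fC :=
  s.toSES.card_mul

include s in
theorem SESM.ne_zero₂ (hA : hqm fA gA ≠ 0) (hC : hqm fC gC ≠ 0) : hqm fB gB ≠ 0 :=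
  s.toSES.ne_zero₂ hA hC

include s in
theorem SESM.ne_zero₃ (hB : hqm fB gB ≠ 0) (hA : hqm gA fA ≠ 0) : hqm fC gC ≠ 0 :=
  s.toSES.ne_zero₃ hB hA

include s in
theorem SESM.ne_zero₁ (hC : hqm fC gC ≠ 0) (hB : hqm gB fB ≠ 0) : hqm gA fA ≠ 0 :=
  s.toSES.ne_zero₁ hC hB

end hexagon

section finite

/-- the Herbrand quotient of a finite module is trivial -/
theorem hqm_eq_of_finite {M : Type*} [CommGroup M] [Finite M] (f g : M →* M)
    (hfg : ∀ b, f (g b) = 1) (hgf : ∀ b, g (f b) = 1) : hqm f g = hqm g f :=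
  hq_eq_of_finite (M := Additive M) (MonoidHom.toAdditive f) (MonoidHom.toAdditive g) hfg hgf

lemma hqm_ne_zero_of_finite {M : Type*} [CommGroup M] [Finite M] (f g : M →* M) :
    hqm f g ≠ 0 :=
  hq_ne_zero_of_finite (M := Additive M) (MonoidHom.toAdditive f) (MonoidHom.toAdditive g)

end finite

/-- constructor for a subgroup -/
def SESM.ofSubgroup {B : Type*} [CommGroup B] (A : Subgroup B) (f g : B →* B)
    (hf : ∀ a ∈ A, f a ∈ A) (hg : ∀ a ∈ A, g a ∈ A)
    (hfg : ∀ b, f (g b) = 1) (hgf : ∀ b, g (f b) = 1) :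
    SESM ((f.comp A.subtype).codRestrict A fun a => hf a a.2)
      ((g.comp A.subtype).codRestrict A fun a => hg a a.2) f g
      (QuotientGroup.map A A f hf) (QuotientGroup.map A A g hg) where
  φ := A.subtype
  ψ := QuotientGroup.mk' A
  inj := A.subtype_injective
  surj := QuotientGroup.mk'_surjective A
  exact := fun b hb => ⟨⟨b, (QuotientGroup.eq_one_iff b).1 hb⟩, rfl⟩
  comp := fun a => (QuotientGroup.eq_one_iff _).2 a.2
  hφf := fun _ => rfl
  hφg := fun _ => rfl
  hψf := fun _ => rfl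
  hψg := fun _ => rfl
  hfg := hfg
  hgf := hgf

end Fermat.Agent.Herbrand
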