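import Mathlib
import Fermat.Agent.Herbrand.Mul

/-!
# Index of `n M` for a finitely generated abelian group
-/

set_option autoImplicit false

open Module

namespace Fermat.Agent.Herbrand

section add

variable (M : Type*) [AddCommGroup M]

/-- the sequence `0 → torsion → M → M/torsion → 0` with multiplication by `n` -/
noncomputable def sesTorsion (n : ℕ) :
    SES (nsmulAddMonoidHom (α := Submodule.torsion ℤ M) n) 0 (nsmulAddMonoidHom (α := M) n) 0
      (nsmulAddMonoidHom (α := M ⧸ Submodule.torsion ℤ M) n) 0 where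
  φ := (Submodule.torsion ℤ M).subtype.toAddMonoidHom
  ψ := (Submodule.torsion ℤ M).mkQ.toAddMonoidHom
  inj := Subtype.val_injective
  surj := Submodule.mkQ_surjective _
  exact := fun b hb => ⟨⟨b, (Submodule.Quotient.mk_eq_zero _).1 hb⟩, rfl⟩
  comp := fun a => (Submodule.Quotient.mk_eq_zero _).2 a.2
  hφf := fun _ => rfl
  hφg := fun _ => rfl
  hψf := fun _ => rfl
  hψg := fun _ => rfl
  hfg := fun _ => by simp
  hgf := fun _ => by simp

lemma hq_nsmul_zero (n : ℕ) : hq (nsmulAddMonoidHom (α := M) n) 0 =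
    Nat.card (nsmulAddMonoidHom (α := M) n).ker := by
  unfold hq
  rw [AddMonoidHom.range_zero, AddSubgroup.relIndex_bot_left]

lemma hq_zero_nsmul (n : ℕ) : hq 0 (nsmulAddMonoidHom (α := M) n) =
    (nsmulAddMonoidHom (α := M) n).range.index := by
  unfold hq
  rw [AddMonoidHom.ker_zero, AddSubgroup.relIndex_top_right]

theorem index_range_nsmul_fg [Module.Finite ℤ M] {n : ℕ} (hn : n ≠ 0) :
    (nsmulAddMonoidHom (α := M) n).range.index =
      n ^ finrank ℤ M * Nat.card (nsmulAddMonoidHom (α := M) n).ker := by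
  have hT : Finite (Submodule.torsion ℤ M) :=
    Module.finite_of_fg_torsion _ (Submodule.torsion_isTorsion)
  have h1 := (sesTorsion M n).card_mul
  rw [hq_nsmul_zero, hq_nsmul_zero, hq_nsmul_zero, hq_zero_nsmul, hq_zero_nsmul,
    hq_zero_nsmul] at h1
  have h2 : (nsmulAddMonoidHom (α := M ⧸ Submodule.torsion ℤ M) n).ker = ⊥ :=
    (AddMonoidHom.ker_eq_bot_iff _).2
      (AddSubgroup.nsmulAddMonoidHom_injective_of_isTorsionFree hn)
  have h3 : Nat.card (nsmulAddMonoidHom (α := M ⧸ Submodule.torsion ℤ M) n).ker = 1 := by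
    rw [h2]; exact AddSubgroup.card_bot
  have h4 : (nsmulAddMonoidHom (α := M ⧸ Submodule.torsion ℤ M) n).range.index =
      n ^ finrank ℤ M := by
    have : Module.Free ℤ (M ⧸ Submodule.torsion ℤ M) := inferInstance
    rw [AddSubgroup.index_range_nsmul]
    congr 1
    exact finrank_quotient_eq_of_le_torsion le_rfl
  have h5 : Nat.card (nsmulAddMonoidHom (α := Submodule.torsion ℤ M) n).ker =
      (nsmulAddMonoidHom (α := Submodule.torsion ℤ M) n).range.index := by
    have := hq_eq_of_finite (nsmulAddMonoidHom (α := Submodule.torsion ℤ M) n) 0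
      (by simp) (by simp)
    rwa [hq_nsmul_zero, hq_zero_nsmul] at this
  have h6 : (nsmulAddMonoidHom (α := Submodule.torsion ℤ M) n).range.index ≠ 0 := by
    rw [← h5]; exact Nat.card_pos.ne'
  rw [h3, h4, h5, mul_one] at h1
  apply Nat.eq_of_mul_eq_mul_left (Nat.pos_of_ne_zero h6)
  rw [h1]; ring

end add

/-- multiplicative form -/
theorem index_range_pow_fg (E : Type*) [CommGroup E] [Module.Finite ℤ (Additive E)] {n : ℕ}
    (hn : n ≠ 0) :
    (powMonoidHom n : E →* E).range.index =
      n ^ finrank ℤ (Additive E) * Nat.card (powMonoidHom n : E →* E).ker :=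
  index_range_nsmul_fg (Additive E) hn

end Fermat.Agent.Herbrand
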