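import Mathlib
import Fermat.Agent.Herbrand.Fg

/-!
# The `p`-Herbrand quotient `[M : M^p] / #M[p]`
-/

set_option autoImplicit false

open Module

namespace Fermat.Agent.Herbrand

/-- `[M : M^p] = c * #M[p]` with `M[p]` finite. -/
structure HP (p : ℕ) (M : Type*) [CommGroup M] (c : ℕ) : Prop where
  eq : (powMonoidHom p : M →* M).range.index = c * Nat.card (powMonoidHom p : M →* M).ker
  fin : Nat.card (powMonoidHom p : M →* M).ker ≠ 0

lemma HP.index_ne_zero {p : ℕ} {M : Type*} [CommGroup M] {c : ℕ} (h : HP p M c) (hc : c ≠ 0) :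
    (powMonoidHom p : M →* M).range.index ≠ 0 := by
  rw [h.eq]; exact mul_ne_zero hc h.fin

lemma hqm_pow_one (p : ℕ) (M : Type*) [CommGroup M] :
    hqm (powMonoidHom p : M →* M) 1 = Nat.card (powMonoidHom p : M →* M).ker := by
  unfold hqm
  rw [MonoidHom.range_one, Subgroup.relIndex_bot_left]

lemma hqm_one_pow (p : ℕ) (M : Type*) [CommGroup M] :
    hqm 1 (powMonoidHom p : M →* M) = (powMonoidHom p : M →* M).range.index := by
  unfold hqm
  rw [MonoidHom.ker_one, Subgroup.relIndex_top_right]

section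

variable {A B C : Type*} [CommGroup A] [CommGroup B] [CommGroup C] {p : ℕ}

/-- the exact sequence with `p`-th powers -/
def sesPow (p : ℕ) (φ : A →* B) (ψ : B →* C) (inj : Function.Injective φ)
    (surj : Function.Surjective ψ) (exact : ∀ b, ψ b = 1 ↔ ∃ a, φ a = b) :
    SESM (powMonoidHom p : A →* A) 1 (powMonoidHom p : B →* B) 1
      (powMonoidHom p : C →* C) 1 where
  φ := φ
  ψ := ψ
  inj := inj
  surj := surj
  exact := fun b hb => (exact b).1 hb
  comp := fun a => (exact _).2 ⟨a, rfl⟩
  hφf := fun a => by simp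
  hφg := fun a => by simp
  hψf := fun a => by simp
  hψg := fun a => by simp
  hfg := fun a => by simp
  hgf := fun a => by simp

variable (φ : A →* B) (ψ : B →* C) (inj : Function.Injective φ)
    (surj : Function.Surjective ψ) (exact : ∀ b, ψ b = 1 ↔ ∃ a, φ a = b)

include inj surj exact

lemma HP.count :
    Nat.card (powMonoidHom p : A →* A).ker * Nat.card (powMonoidHom p : C →* C).ker *
      (powMonoidHom p : B →* B).range.index =
    Nat.card (powMonoidHom p : B →* B).ker * (powMonoidHom p : A →* A).range.index *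
      (powMonoidHom p : C →* C).range.index := by
  have h := (sesPow p φ ψ inj surj exact).card_mul
  rwa [hqm_pow_one, hqm_pow_one, hqm_pow_one, hqm_one_pow, hqm_one_pow, hqm_one_pow] at h

theorem HP.mid {a c : ℕ} (hA : HP p A a) (hC : HP p C c) : HP p B (a * c) := by
  have h := HP.count (p := p) φ ψ inj surj exact
  have h2 := (sesPow p φ ψ inj surj exact).ne_zero₂ (by rw [hqm_pow_one]; exact hA.fin)
    (by rw [hqm_pow_one]; exact hC.fin)
  rw [hqm_pow_one] at h2
  refine ⟨?_, h2⟩
  rw [hA.eq, hC.eq] at h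
  apply Nat.eq_of_mul_eq_mul_left (Nat.pos_of_ne_zero (mul_ne_zero hA.fin hC.fin))
  rw [h]; ring

theorem HP.right {a c : ℕ} (hA : HP p A a) (hB : HP p B (a * c)) (ha : a ≠ 0) : HP p C c := by
  have h := HP.count (p := p) φ ψ inj surj exact
  have h2 := (sesPow p φ ψ inj surj exact).ne_zero₃ (by rw [hqm_pow_one]; exact hB.fin)
    (by rw [hqm_one_pow]; exact hA.index_ne_zero ha)
  rw [hqm_pow_one] at h2
  refine ⟨?_, h2⟩
  rw [hA.eq, hB.eq] at h
  apply Nat.eq_of_mul_eq_mul_left (Nat.pos_of_ne_zero (mul_ne_zero (mul_ne_zero hA.fin hB.fin) ha))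
  linear_combination -h

end

section

variable {A B : Type*} [CommGroup A] [CommGroup B] {p : ℕ}

theorem HP.congr (e : A ≃* B) {a : ℕ} (hA : HP p A a) : HP p B a := by
  have e1 : (powMonoidHom p : B →* B).range = (powMonoidHom p : A →* A).range.map e.toMonoidHom := by
    ext b
    constructor
    · rintro ⟨c, rfl⟩
      exact ⟨(e.symm c) ^ p, ⟨e.symm c, rfl⟩, by simp⟩
    · rintro ⟨_, ⟨c, rfl⟩, rfl⟩
      exact ⟨e c, by simp⟩
  have e2 : (powMonoidHom p : B →* B).ker = (powMonoidHom p : A →* A).ker.map e.toMonoidHom := by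
    ext b
    constructor
    · intro hb
      rw [MonoidHom.mem_ker, powMonoidHom_apply] at hb
      refine ⟨e.symm b, ?_, by simp⟩
      show e.symm b ∈ (powMonoidHom p : A →* A).ker
      rw [MonoidHom.mem_ker, powMonoidHom_apply, ← map_pow, hb, map_one]
    · rintro ⟨c, hc, rfl⟩
      have hc' : c ∈ (powMonoidHom p : A →* A).ker := hc
      rw [MonoidHom.mem_ker, powMonoidHom_apply] at hc' ⊢
      show (e c) ^ p = 1
      rw [← map_pow, hc', map_one]
  have e3 : Nat.card ((powMonoidHom p : A →* A).ker.map e.toMonoidHom) =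
      Nat.card (powMonoidHom p : A →* A).ker :=
    Nat.card_congr ((powMonoidHom p : A →* A).ker.equivMapOfInjective e.toMonoidHom
      e.injective).symm.toEquiv
  have e4 : ((powMonoidHom p : A →* A).range.map e.toMonoidHom).index =
      (powMonoidHom p : A →* A).range.index :=
    Subgroup.index_map_of_bijective e.bijective _
  refine ⟨?_, ?_⟩
  · rw [e1, e2, e3, e4]; exact hA.eq
  · rw [e2, e3]; exact hA.fin

theorem HP.of_finite (M : Type*) [CommGroup M] [Finite M] (p : ℕ) : HP p M 1 := by
  have h := hqm_eq_of_finite (powMonoidHom p : M →* M) 1 (by simp) (by simp)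
  rw [hqm_pow_one, hqm_one_pow] at h
  exact ⟨by rw [h, one_mul], Nat.card_pos.ne'⟩

theorem HP.of_fg (M : Type*) [CommGroup M] [Module.Finite ℤ (Additive M)] {p : ℕ} (hp : p ≠ 0) :
    HP p M (p ^ finrank ℤ (Additive M)) := by
  refine ⟨index_range_pow_fg M hp, ?_⟩
  have : Finite (Submodule.torsion ℤ (Additive M)) :=
    Module.finite_of_fg_torsion _ (Submodule.torsion_isTorsion)
  have h1 : Finite (powMonoidHom p : M →* M).ker := by
    apply Finite.of_injective (fun x : (powMonoidHom p : M →* M).ker =>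
      (⟨Additive.ofMul (x : M), by
        rw [Submodule.mem_torsion_iff]
        refine ⟨⟨(p : ℤ), by simpa using hp⟩, ?_⟩
        have hx := x.2
        rw [MonoidHom.mem_ker, powMonoidHom_apply] at hx
        show (p : ℤ) • Additive.ofMul (x : M) = 0
        rw [natCast_zsmul, ← ofMul_pow, hx]; rfl⟩ : Submodule.torsion ℤ (Additive M)))
    intro x y hxy
    have := congrArg (fun z : Submodule.torsion ℤ (Additive M) => (z : Additive M)) hxy
    exact Subtype.ext this
  exact Nat.card_pos.ne'

/-- if `p`-th power is bijective -/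
theorem HP.of_bijective (M : Type*) [CommGroup M] {p : ℕ}
    (h : Function.Bijective (fun x : M => x ^ p)) : HP p M 1 := by
  have h1 : (powMonoidHom p : M →* M).range = ⊤ := MonoidHom.range_eq_top.2 h.2
  have h2 : (powMonoidHom p : M →* M).ker = ⊥ := (MonoidHom.ker_eq_bot_iff _).2 h.1
  refine ⟨?_, ?_⟩
  · rw [h1, h2, Subgroup.index_top]; simp
  · rw [h2]; simp

/-- if `p`-th power is injective -/
theorem HP.of_injective (M : Type*) [CommGroup M] {p : ℕ}
    (h : Function.Injective (fun x : M => x ^ p)) : HP p M (powMonoidHom p : M →* M).range.index := by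
  have h2 : (powMonoidHom p : M →* M).ker = ⊥ := (MonoidHom.ker_eq_bot_iff _).2 h
  refine ⟨?_, ?_⟩
  · rw [h2]; simp
  · rw [h2]; simp

theorem HP.of_le {G : Type*} [CommGroup G] {A B : Subgroup G} (h : A ≤ B) {a c : ℕ}
    (hA : HP p A a) (hC : HP p (B ⧸ A.subgroupOf B) c) : HP p B (a * c) :=
  HP.mid (Subgroup.inclusion h) (QuotientGroup.mk' (A.subgroupOf B))
    (Subgroup.inclusion_injective h) (QuotientGroup.mk'_surjective _)
    (fun b => by
      rw [QuotientGroup.mk'_apply, QuotientGroup.eq_one_iff, Subgroup.mem_subgroupOf]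
      constructor
      · intro hb; exact ⟨⟨b, hb⟩, rfl⟩
      · rintro ⟨a, rfl⟩; exact a.2) hA hC

theorem HP.prod {a b : ℕ} (hA : HP p A a) (hB : HP p B b) : HP p (A × B) (a * b) :=
  HP.mid (MonoidHom.inl A B) (MonoidHom.snd A B) (fun x y h => congrArg Prod.fst h)
    (fun b => ⟨(1, b), rfl⟩)
    (fun x => by
      constructor
      · intro h; exact ⟨x.1, by ext; rfl; exact h.symm⟩
      · rintro ⟨a, rfl⟩; rfl) hA hB

theorem HP.pi {ι : Type*} (s : Finset ι) (M : ι → Type*) [∀ i, CommGroup (M i)] (c : ι → ℕ)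
    (h : ∀ i ∈ s, HP p (M i) (c i)) : HP p (∀ i : s, M i) (∏ i ∈ s, c i) := by
  classical
  induction s using Finset.induction_on with
  | empty =>
    rw [Finset.prod_empty]
    exact HP.of_finite _ p
  | insert i s hi ih =>
    rw [Finset.prod_insert hi, mul_comm]
    have ih' := ih (fun j hj => h j (Finset.mem_insert_of_mem hj))
    let φ : (∀ j : s, M j) →* (∀ j : (insert i s : Finset ι), M j) :=
      { toFun := fun x j => if hj : (j : ι) ∈ s then x ⟨j, hj⟩ else 1
        map_one' := by funext j; by_cases hj : (j : ι) ∈ s <;> simp [hj]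
        map_mul' := fun x y => by funext j; by_cases hj : (j : ι) ∈ s <;> simp [hj] }
    let ψ : (∀ j : (insert i s : Finset ι), M j) →* M i :=
      Pi.evalMonoidHom (fun j : (insert i s : Finset ι) => M j) ⟨i, Finset.mem_insert_self i s⟩
    refine HP.mid φ ψ ?_ ?_ ?_ ih' (h i (Finset.mem_insert_self i s))
    · intro x y hxy
      funext j
      have h1 := congrFun hxy ⟨j, Finset.mem_insert_of_mem j.2⟩
      have h2 : ∀ z : (∀ j : s, M j), φ z ⟨j, Finset.mem_insert_of_mem j.2⟩ = z j := by
        intro z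
        show (if hj : (j : ι) ∈ s then z ⟨j, hj⟩ else 1) = z j
        rw [dif_pos j.2]
      rw [h2, h2] at h1
      exact h1
    · intro m
      exact ⟨Pi.mulSingle ⟨i, Finset.mem_insert_self i s⟩ m, Pi.mulSingle_eq_same _ _⟩
    · intro y
      constructor
      · intro hy
        refine ⟨fun j => y ⟨j, Finset.mem_insert_of_mem j.2⟩, ?_⟩
        funext j
        show (if hj : (j : ι) ∈ s then y ⟨j, Finset.mem_insert_of_mem hj⟩ else 1) = y j
        by_cases hj : (j : ι) ∈ s
        · rw [dif_pos hj]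
        · rw [dif_neg hj]
          obtain ⟨j, hj'⟩ := j
          have hji : j = i := (Finset.mem_insert.1 hj').resolve_right hj
          subst hji
          exact hy.symm
      · rintro ⟨x, rfl⟩
        show (if hj : i ∈ s then x ⟨i, hj⟩ else (1 : M i)) = 1
        rw [dif_neg hi]

end

end Fermat.Agent.Herbrand
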